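/-
S48 / GATE-N, node S48-HECKE-NEB (helper18), part 2: the `Γ₀(N)`-version of helper10's coset
computation `DS/N0/HeckeGamma1.rep1_mul` — for `g ∈ Γ₀(N)` the Hecke representatives satisfy
`β_x · g = g'' · β_{g·x}` with `g'' ∈ Γ₀(N)` in the SAME `d`-class as `g`.  Consequence:
`T_p` commutes with the slash by `Γ₀(N)` on `Γ₁(N)`-invariant functions (`heckeT1_slash_Gamma0`),
hence with the diamond operators.
-/
import Fermat.Agent.DS.N0.HeckeQExp
import Fermat.Agent.DS.Hecke.Diamond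

set_option autoImplicit false

open CongruenceSubgroup Matrix.SpecialLinearGroup UpperHalfPlane ModularForm
open scoped MatrixGroups ModularForm
open Fermat.Agent.DS.N0

namespace Fermat.Agent.DS.Hecke

variable {N : ℕ} {p : ℕ} [Fact p.Prime]

theorem mem_Gamma0_iff_dvd {g : SL(2, ℤ)} : g ∈ Gamma0 N ↔ (N : ℤ) ∣ g 1 0 := by
  rw [Gamma0_mem, ZMod.intCast_zmod_eq_zero_iff_dvd]

/-- `Γ₀(N)`-version of `rep1_mul`: same permutation of `ℙ¹(𝔽_p)`, the new element of `Γ₀(N)` has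
the same lower right entry mod `N`. -/
theorem rep1_mul0 (hpN : ¬ p ∣ N) (σ : SL(2, ℤ)) (hσ0 : (N : ℤ) ∣ σ 1 0)
    (hσ1 : ((σ 1 1 : ℤ) : ZMod N) = (p : ZMod N)) (g : SL(2, ℤ)) (hg0 : (N : ℤ) ∣ g 1 0)
    (x : OnePoint (ZMod p)) :
    ∃ g'' : SL(2, ℤ), (N : ℤ) ∣ g'' 1 0 ∧ ((g'' 1 1 : ℤ) : ZMod N) = ((g 1 1 : ℤ) : ZMod N) ∧
      rep1 p σ x * mapGL ℝ g = mapGL ℝ g'' * rep1 p σ (redMat p g • x) := by
  have hp : p ≠ 0 := (Fact.out : p.Prime).ne_zero
  have hg0' : ((g 1 0 : ℤ) : ZMod N) = 0 := (ZMod.intCast_zmod_eq_zero_iff_dvd _ _).mpr hg0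
  have hσ00 : ((σ 0 0 : ℤ) : ZMod N) * (p : ZMod N) = 1 := by
    rw [← hσ1]; exact cast_zero_zero_mul_one_one hσ0
  induction x using OnePoint.rec with
  | infty =>
    rw [OnePoint.smul_infty_eq_ite]
    by_cases hc : ((g 1 0 : ℤ) : ZMod p) = 0
    · rw [if_pos (by simpa using hc), rep1_infty]
      obtain ⟨e, he⟩ := (ZMod.intCast_zmod_eq_zero_iff_dvd _ _).mp hc
      obtain ⟨g', hg'0, hg'1, hmul⟩ := hd_mul_eq_hd hp g e he
      have hcop : IsCoprime (N : ℤ) (p : ℤ) :=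
        Nat.isCoprime_iff_coprime.mpr ((Nat.Prime.coprime_iff_not_dvd Fact.out).mpr hpN).symm
      have hg'N : (N : ℤ) ∣ g' 1 0 := by
        rw [hg'0]; exact hcop.dvd_of_dvd_mul_left (he ▸ hg0)
      refine ⟨σ * g' * σ⁻¹, ?_, ?_, ?_⟩
      · exact dvd_mul_apply_one_zero (dvd_mul_apply_one_zero hσ0 hg'N)
          (dvd_inv_apply_one_zero hσ0)
      · rw [cast_mul_apply_one_one (dvd_mul_apply_one_zero hσ0 hg'N),
          cast_mul_apply_one_one hσ0, sl_inv_apply_one_one, hg'1, hσ1]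
        linear_combination ((g 1 1 : ℤ) : ZMod N) * hσ00
      · rw [mul_assoc, hmul, map_mul, map_mul, map_inv]
        group
    · rw [if_neg (by simpa using hc), rep1_infty, rep1_coe]
      set y : ZMod p := redMat p g 0 0 / redMat p g 1 0 with hy
      obtain ⟨e, he⟩ : (p : ℤ) ∣ g 1 1 - g 1 0 * y.val := by
        rw [← ZMod.intCast_zmod_eq_zero_iff_dvd]
        push_cast
        rw [ZMod.natCast_zmod_val, hy, redMat_apply_zero_zero, redMat_apply_one_zero,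
          mul_div_cancel₀ _ hc, sub_self]
      obtain ⟨g', hg'0, hg'1, hmul⟩ := hd_mul_eq_hm hp g y.val e (by linear_combination he)
      refine ⟨σ * g', ?_, ?_, ?_⟩
      · exact dvd_mul_apply_one_zero hσ0 (hg'0 ▸ hg0)
      · rw [cast_mul_apply_one_one hσ0, hg'1, hσ1]
        have := congrArg (Int.cast : ℤ → ZMod N) he
        push_cast at this
        rw [hg0', zero_mul, sub_zero] at this
        exact this.symm
      · rw [mul_assoc, hmul, map_mul, mul_assoc]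
  | coe j =>
    rw [OnePoint.smul_some_eq_ite]
    by_cases h : redMat p g 1 0 * j + redMat p g 1 1 = 0
    · rw [if_pos h, rep1_infty, rep1_coe]
      rw [redMat_apply_one_zero, redMat_apply_one_one] at h
      obtain ⟨e, he⟩ : (p : ℤ) ∣ g 0 0 + j.val * g 1 0 := by
        rw [← ZMod.intCast_zmod_eq_zero_iff_dvd]
        push_cast
        rw [ZMod.natCast_zmod_val]
        linear_combination h
      obtain ⟨g', hg'0, hg'1, hmul⟩ := hm_mul_eq_hd hp g j.val e he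
      refine ⟨g' * σ⁻¹, ?_, ?_, ?_⟩
      · exact dvd_mul_apply_one_zero (hg'0 ▸ hg0) (dvd_inv_apply_one_zero hσ0)
      · rw [cast_mul_apply_one_one (hg'0 ▸ hg0), sl_inv_apply_one_one, hg'1]
        push_cast
        linear_combination ((g 1 1 : ℤ) : ZMod N) * hσ00
      · rw [hmul, map_mul, map_inv]
        group
    · rw [if_neg h, rep1_coe, rep1_coe]
      set y : ZMod p := (redMat p g 0 0 * j + redMat p g 0 1) /
        (redMat p g 1 0 * j + redMat p g 1 1) with hy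
      obtain ⟨e, he⟩ : (p : ℤ) ∣ g 0 1 + j.val * g 1 1 - y.val * (g 0 0 + j.val * g 1 0) := by
        rw [← ZMod.intCast_zmod_eq_zero_iff_dvd]
        push_cast
        rw [ZMod.natCast_zmod_val, ZMod.natCast_zmod_val,
          show ((g 0 0 : ℤ) : ZMod p) + j * ((g 1 0 : ℤ) : ZMod p)
            = redMat p g 1 0 * j + redMat p g 1 1 by
              rw [redMat_apply_one_zero, redMat_apply_one_one]; ring,
          hy, div_mul_cancel₀ _ h, redMat_apply_zero_zero, redMat_apply_zero_one]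
        ring
      obtain ⟨g', hg'0, hg'1, hmul⟩ := hm_mul_eq_hm hp g j.val y.val e (by linear_combination he)
      refine ⟨g', ?_, ?_, hmul⟩
      · exact hg'0 ▸ dvd_mul_of_dvd_right hg0 _
      · rw [hg'1]
        push_cast
        rw [hg0', zero_mul, sub_zero]

/-- **`T_p` commutes with the slash by `Γ₀(N)`** on `Γ₁(N)`-invariant functions. -/
theorem heckeT1_slash_Gamma0 (k : ℤ) (hpN : ¬ p ∣ N) (σ : SL(2, ℤ)) (hσ0 : (N : ℤ) ∣ σ 1 0)
    (hσ1 : ((σ 1 1 : ℤ) : ZMod N) = (p : ZMod N)) (f : ℍ → ℂ) (hf : IsG1Inv N k f)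
    (g : SL(2, ℤ)) (hg : g ∈ Gamma0 N) :
    heckeT1 k p σ f ∣[k] mapGL ℝ g = heckeT1 k p σ (f ∣[k] mapGL ℝ g) := by
  have : NeZero p := ⟨(Fact.out : p.Prime).ne_zero⟩
  have hg0 : (N : ℤ) ∣ g 1 0 := mem_Gamma0_iff_dvd.1 hg
  rw [heckeT1_eq_sum k σ f, heckeT1_eq_sum k σ (f ∣[k] mapGL ℝ g), SlashAction.sum_slash]
  calc ∑ x : OnePoint (ZMod p), (f ∣[k] rep1 p σ x) ∣[k] mapGL ℝ g
      = ∑ x : OnePoint (ZMod p), (f ∣[k] mapGL ℝ g) ∣[k] rep1 p σ (redMat p g • x) := by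
        refine Finset.sum_congr rfl fun x _ ↦ ?_
        obtain ⟨g'', hg''0, hg''1, hmul⟩ := rep1_mul0 hpN σ hσ0 hσ1 g hg0 x
        rw [← SlashAction.slash_mul, hmul, SlashAction.slash_mul,
          hf.slash_congr hg (mem_Gamma0_iff_dvd.2 hg''0) hg''1]
    _ = ∑ x : OnePoint (ZMod p), (f ∣[k] mapGL ℝ g) ∣[k] rep1 p σ x :=
        Equiv.sum_comp (MulAction.toPerm (redMat p g))
          (fun x ↦ (f ∣[k] mapGL ℝ g) ∣[k] rep1 p σ x)

omit [Fact p.Prime] in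
/-- `heckeT1` does not depend on the choice of `σ ∈ Γ₀(N)` with `σ₁₁ ≡ p`. -/
theorem heckeT1_congr (k : ℤ) {σ σ' : SL(2, ℤ)} (hσ : σ ∈ Gamma0 N) (hσ' : σ' ∈ Gamma0 N)
    (h : ((σ' 1 1 : ℤ) : ZMod N) = ((σ 1 1 : ℤ) : ZMod N)) (f : ℍ → ℂ) (hf : IsG1Inv N k f) :
    heckeT1 k p σ' f = heckeT1 k p σ f := by
  unfold Fermat.Agent.DS.N0.heckeT1
  rw [hf.slash_congr hσ hσ' h]

/-- `T_p f` is again `Γ₁(N)`-invariant (helper10's `heckeT1_slash` in `IsG1Inv` form). -/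
theorem IsG1Inv.heckeT1 (k : ℤ) (hpN : ¬ p ∣ N) (σ : SL(2, ℤ)) (hσ0 : (N : ℤ) ∣ σ 1 0)
    (hσ1 : ((σ 1 1 : ℤ) : ZMod N) = (p : ZMod N)) {f : ℍ → ℂ} (hf : IsG1Inv N k f) :
    IsG1Inv N k (heckeT1 k p σ f) :=
  fun g hg => heckeT1_slash k hpN σ hσ0 hσ1 f hf g hg

end Fermat.Agent.DS.Hecke
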