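/-
S48 / GATE-N, node S48-HECKE-NEB (helper18), part 3: Hecke operators `T_ℓ` (ℓ ∤ N prime) on
`M_k(Γ₁(N))`, `S_k(Γ₁(N))` as `ℂ`-linear endomorphisms, in the binder shapes of the prelude's
`CuspForm.heckeTLin` (port-side request of helper22, board 3304):

* `heckeT1MF k hℓ hℓN`, `heckeT1Lin k hℓ hℓN`;
* `qCoeff_heckeT1Lin` : `a_n(T_ℓ f) = a_{nℓ}(f) + [ℓ ∣ n] ℓ^(k-1) a_{n/ℓ}(⟨ℓ⟩ f)`;
* `heckeT1Lin_diamondLin_comm`, `heckeT1Lin_comm`, (and `diamondLin_comm` from `Diamond.lean`);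
* `heckeAlgebra1 N k S` with the same instances as `CuspForm.heckeAlgebra`.

Built on helper10's `DS/N0` (function-level `heckeT1`, coset computation, `NiceAtInfty`).
-/
import Fermat.Agent.DS.N0.Nebentypus
import Fermat.Agent.DS.Hecke.CosetGamma0
import Fermat.Prelude.Thm_CuspFormClass_isZeroAt_heckeT
import Fermat.Prelude.Thm_CuspFormClass_isZeroAt_heckeU
import Fermat.Prelude.Thm_ModularFormClass_isBoundedAt_heckeT
import Fermat.Prelude.Thm_ModularFormClass_isBoundedAt_heckeU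

set_option autoImplicit false

open CongruenceSubgroup Matrix.SpecialLinearGroup UpperHalfPlane ModularForm
open scoped MatrixGroups ModularForm Manifold
open Fermat.Agent.DS.N0

namespace Fermat.Agent.DS.Hecke

/-! ### Function level linearity of `heckeT1` -/

theorem heckeT1_add (k : ℤ) (p : ℕ) (σ : SL(2, ℤ)) (f f' : ℍ → ℂ) :
    heckeT1 k p σ (f + f') = heckeT1 k p σ f + heckeT1 k p σ f' := by
  unfold Fermat.Agent.DS.N0.heckeT1
  rw [heckeU_add, SlashAction.add_slash, SlashAction.add_slash]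
  abel

theorem heckeT1_smul (k : ℤ) (p : ℕ) (σ : SL(2, ℤ)) (c : ℂ) (f : ℍ → ℂ) :
    heckeT1 k p σ (c • f) = c • heckeT1 k p σ f := by
  unfold Fermat.Agent.DS.N0.heckeT1
  rw [heckeU_smul, smul_slash_mapGL, ModularForm.smul_slash, σ_heckeDiagMatrix,
    ContinuousAlgEquiv.refl_apply, smul_add]

/-- `T_p f = T_p^{naive}(f ∣ σ) + U_p (f - f ∣ σ)`: every piece is covered by a level-agnostic
prelude lemma. -/
theorem heckeT1_eq_heckeT_add_heckeU (k : ℤ) (p : ℕ) (σ : SL(2, ℤ)) (f : ℍ → ℂ) :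
    heckeT1 k p σ f =
      heckeT k p (f ∣[k] mapGL ℝ σ) + heckeU k p (f - f ∣[k] mapGL ℝ σ) := by
  unfold Fermat.Agent.DS.N0.heckeT1
  rw [heckeT_eq_heckeU_add, heckeU_sub]
  abel

variable {N : ℕ} [NeZero N]

/-! ### The unit of `ZMod N` attached to a prime `ℓ ∤ N` -/

/-- The class of a prime `ℓ ∤ N` in `(ZMod N)ˣ`. -/
noncomputable def primeUnit {ℓ : ℕ} (hℓ : ℓ.Prime) (hℓN : ¬ ℓ ∣ N) : (ZMod N)ˣ :=
  ZMod.unitOfCoprime ℓ ((Nat.Prime.coprime_iff_not_dvd hℓ).2 hℓN)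

omit [NeZero N] in
@[simp] theorem coe_primeUnit {ℓ : ℕ} (hℓ : ℓ.Prime) (hℓN : ¬ ℓ ∣ N) :
    ((primeUnit hℓ hℓN : (ZMod N)ˣ) : ZMod N) = (ℓ : ZMod N) :=
  ZMod.coe_unitOfCoprime ℓ _

/-- The chosen element of `Γ₀(N)` with lower right entry `≡ ℓ`. -/
noncomputable def primeRep {ℓ : ℕ} (hℓ : ℓ.Prime) (hℓN : ¬ ℓ ∣ N) : SL(2, ℤ) :=
  diamondRep (primeUnit hℓ hℓN)

theorem primeRep_mem {ℓ : ℕ} (hℓ : ℓ.Prime) (hℓN : ¬ ℓ ∣ N) : primeRep hℓ hℓN ∈ Gamma0 N :=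
  diamondRep_mem _

theorem primeRep_dvd {ℓ : ℕ} (hℓ : ℓ.Prime) (hℓN : ¬ ℓ ∣ N) :
    (N : ℤ) ∣ (primeRep hℓ hℓN) 1 0 :=
  mem_Gamma0_iff_dvd.1 (primeRep_mem hℓ hℓN)

theorem primeRep_d {ℓ : ℕ} (hℓ : ℓ.Prime) (hℓN : ¬ ℓ ∣ N) :
    (((primeRep hℓ hℓN) 1 1 : ℤ) : ZMod N) = (ℓ : ZMod N) := by
  rw [primeRep, diamondRep_d, coe_primeUnit]

/-! ### `T_ℓ` on forms -/

/-- `T_ℓ` on modular forms for `Γ₁(N)`, as a function. -/
noncomputable def heckeT1MFfun (k : ℤ) {ℓ : ℕ} (hℓ : ℓ.Prime) (hℓN : ¬ ℓ ∣ N)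
    (f : ModularForm (Gamma1 N : Subgroup (GL (Fin 2) ℝ)) k) :
    ModularForm (Gamma1 N : Subgroup (GL (Fin 2) ℝ)) k where
  toFun := heckeT1 k ℓ (primeRep hℓ hℓN) ⇑f
  slash_action_eq' := by
    rintro _ ⟨γ, hγ, rfl⟩
    have : Fact ℓ.Prime := ⟨hℓ⟩
    exact heckeT1_slash k hℓN _ (primeRep_dvd hℓ hℓN) (primeRep_d hℓ hℓN) ⇑f
      (isG1Inv_of_form f) γ hγ
  holo' := by
    unfold Fermat.Agent.DS.N0.heckeT1
    exact (mdifferentiable_heckeU (ModularFormClass.holo f) k ℓ).add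
      (((ModularFormClass.holo f).slash k _).slash k _)
  bdd_at_cusps' := fun {c} hc => by
    rw [heckeT1_eq_heckeT_add_heckeU]
    have h1 := ModularFormClass.isBoundedAt_heckeT
      (slashGamma0MF k (primeRep_mem hℓ hℓN) f) ℓ hc
    have h2 := ModularFormClass.isBoundedAt_heckeU
      (f - slashGamma0MF k (primeRep_mem hℓ hℓN) f) ℓ hc
    rw [FunLike.coe_sub] at h2
    exact h1.add h2

/-- `T_ℓ` on cusp forms for `Γ₁(N)`, as a function. -/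
noncomputable def heckeT1CFfun (k : ℤ) {ℓ : ℕ} (hℓ : ℓ.Prime) (hℓN : ¬ ℓ ∣ N)
    (f : CuspForm (Gamma1 N : Subgroup (GL (Fin 2) ℝ)) k) :
    CuspForm (Gamma1 N : Subgroup (GL (Fin 2) ℝ)) k where
  toFun := heckeT1 k ℓ (primeRep hℓ hℓN) ⇑f
  slash_action_eq' := by
    rintro _ ⟨γ, hγ, rfl⟩
    have : Fact ℓ.Prime := ⟨hℓ⟩
    exact heckeT1_slash k hℓN _ (primeRep_dvd hℓ hℓN) (primeRep_d hℓ hℓN) ⇑f
      (isG1Inv_of_form f) γ hγ
  holo' := by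
    unfold Fermat.Agent.DS.N0.heckeT1
    exact (mdifferentiable_heckeU (CuspFormClass.holo f) k ℓ).add
      (((CuspFormClass.holo f).slash k _).slash k _)
  zero_at_cusps' := fun {c} hc => by
    rw [heckeT1_eq_heckeT_add_heckeU]
    have h1 := CuspFormClass.isZeroAt_heckeT
      (slashGamma0CF k (primeRep_mem hℓ hℓN) f) ℓ hc
    have h2 := CuspFormClass.isZeroAt_heckeU
      (f - slashGamma0CF k (primeRep_mem hℓ hℓN) f) ℓ hc
    rw [FunLike.coe_sub] at h2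
    exact h1.add h2

@[simp] theorem coe_heckeT1MFfun (k : ℤ) {ℓ : ℕ} (hℓ : ℓ.Prime) (hℓN : ¬ ℓ ∣ N)
    (f : ModularForm (Gamma1 N : Subgroup (GL (Fin 2) ℝ)) k) :
    ⇑(heckeT1MFfun k hℓ hℓN f) = heckeT1 k ℓ (primeRep hℓ hℓN) ⇑f := rfl

@[simp] theorem coe_heckeT1CFfun (k : ℤ) {ℓ : ℕ} (hℓ : ℓ.Prime) (hℓN : ¬ ℓ ∣ N)
    (f : CuspForm (Gamma1 N : Subgroup (GL (Fin 2) ℝ)) k) :
    ⇑(heckeT1CFfun k hℓ hℓN f) = heckeT1 k ℓ (primeRep hℓ hℓN) ⇑f := rfl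

/-- **`T_ℓ` on `M_k(Γ₁(N))`** (`ℓ ∤ N` prime), binder order of the prelude's `heckeTLin`. -/
noncomputable def heckeT1MF (k : ℤ) {ℓ : ℕ} (hℓ : ℓ.Prime) (hℓN : ¬ ℓ ∣ N) :
    Module.End ℂ (ModularForm (Gamma1 N : Subgroup (GL (Fin 2) ℝ)) k) where
  toFun := heckeT1MFfun k hℓ hℓN
  map_add' f f' := DFunLike.coe_injective <| by
    rw [coe_heckeT1MFfun, FunLike.coe_add, FunLike.coe_add, heckeT1_add]; rfl
  map_smul' c f := DFunLike.coe_injective <| by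
    rw [coe_heckeT1MFfun, FunLike.coe_smul, heckeT1_smul, RingHom.id_apply, FunLike.coe_smul]; rfl

/-- **`T_ℓ` on `S_k(Γ₁(N))`** (`ℓ ∤ N` prime), binder order of the prelude's
`CuspForm.heckeTLin`. -/
noncomputable def heckeT1Lin (k : ℤ) {ℓ : ℕ} (hℓ : ℓ.Prime) (hℓN : ¬ ℓ ∣ N) :
    Module.End ℂ (CuspForm (Gamma1 N : Subgroup (GL (Fin 2) ℝ)) k) where
  toFun := heckeT1CFfun k hℓ hℓN
  map_add' f f' := DFunLike.coe_injective <| by
    rw [coe_heckeT1CFfun, FunLike.coe_add, FunLike.coe_add, heckeT1_add]; rfl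
  map_smul' c f := DFunLike.coe_injective <| by
    rw [coe_heckeT1CFfun, FunLike.coe_smul, heckeT1_smul, RingHom.id_apply, FunLike.coe_smul]; rfl

theorem coe_heckeT1MF (k : ℤ) {ℓ : ℕ} (hℓ : ℓ.Prime) (hℓN : ¬ ℓ ∣ N)
    (f : ModularForm (Gamma1 N : Subgroup (GL (Fin 2) ℝ)) k) :
    ⇑(heckeT1MF k hℓ hℓN f) = heckeT1 k ℓ (primeRep hℓ hℓN) ⇑f := rfl

theorem coe_heckeT1Lin (k : ℤ) {ℓ : ℕ} (hℓ : ℓ.Prime) (hℓN : ¬ ℓ ∣ N)
    (f : CuspForm (Gamma1 N : Subgroup (GL (Fin 2) ℝ)) k) :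
    ⇑(heckeT1Lin k hℓ hℓN f) = heckeT1 k ℓ (primeRep hℓ hℓN) ⇑f := rfl

/-- `T_ℓ f = U_ℓ f + (⟨ℓ⟩ f) ∣ diag(ℓ, 1)` with ANY `σ ∈ Γ₀(N)`, `σ₁₁ ≡ ℓ`. -/
theorem coe_heckeT1Lin_eq (k : ℤ) {ℓ : ℕ} (hℓ : ℓ.Prime) (hℓN : ¬ ℓ ∣ N)
    (f : CuspForm (Gamma1 N : Subgroup (GL (Fin 2) ℝ)) k) {σ : SL(2, ℤ)} (hσ : σ ∈ Gamma0 N)
    (hσ1 : ((σ 1 1 : ℤ) : ZMod N) = (ℓ : ZMod N)) :
    ⇑(heckeT1Lin k hℓ hℓN f) = heckeT1 k ℓ σ ⇑f := by
  rw [coe_heckeT1Lin]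
  exact heckeT1_congr k hσ (primeRep_mem hℓ hℓN) (by rw [primeRep_d, hσ1]) _ (isG1Inv_of_form f)

theorem coe_heckeT1MF_eq (k : ℤ) {ℓ : ℕ} (hℓ : ℓ.Prime) (hℓN : ¬ ℓ ∣ N)
    (f : ModularForm (Gamma1 N : Subgroup (GL (Fin 2) ℝ)) k) {σ : SL(2, ℤ)} (hσ : σ ∈ Gamma0 N)
    (hσ1 : ((σ 1 1 : ℤ) : ZMod N) = (ℓ : ZMod N)) :
    ⇑(heckeT1MF k hℓ hℓN f) = heckeT1 k ℓ σ ⇑f := by
  rw [coe_heckeT1MF]
  exact heckeT1_congr k hσ (primeRep_mem hℓ hℓN) (by rw [primeRep_d, hσ1]) _ (isG1Inv_of_form f)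

/-! ### `q`-coefficients -/

omit [NeZero N] in
theorem nice_modular {k : ℤ} (f : ModularForm (Gamma1 N : Subgroup (GL (Fin 2) ℝ)) k) :
    NiceAtInfty (f : ℍ → ℂ) :=
  NiceAtInfty.of_modularFormClass f (by simp)

/-- **`q`-coefficients of `T_ℓ` on `S_k(Γ₁(N))`**:
`a_n(T_ℓ f) = a_{nℓ}(f) + [ℓ ∣ n] ℓ^(k-1) a_{n/ℓ}(⟨ℓ⟩ f)`. -/
theorem qCoeff_heckeT1Lin (k : ℤ) {ℓ : ℕ} (hℓ : ℓ.Prime) (hℓN : ¬ ℓ ∣ N)
    (f : CuspForm (Gamma1 N : Subgroup (GL (Fin 2) ℝ)) k) (n : ℕ) :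
    ModularFormClass.qCoeff (heckeT1Lin k hℓ hℓN f) n =
      ModularFormClass.qCoeff f (n * ℓ) +
        if ℓ ∣ n then (ℓ : ℂ) ^ (k - 1) *
          ModularFormClass.qCoeff (diamondLin k (primeUnit hℓ hℓN) f) (n / ℓ) else 0 := by
  rw [coe_heckeT1Lin, qCoeff_heckeT1 (nice_cusp f) k hℓ.ne_zero (primeRep hℓ hℓN)
    (nice_cusp (diamondLin k (primeUnit hℓ hℓN) f))]
  rfl

/-- **`q`-coefficients of `T_ℓ` on `M_k(Γ₁(N))`**. -/
theorem qCoeff_heckeT1MF (k : ℤ) {ℓ : ℕ} (hℓ : ℓ.Prime) (hℓN : ¬ ℓ ∣ N)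
    (f : ModularForm (Gamma1 N : Subgroup (GL (Fin 2) ℝ)) k) (n : ℕ) :
    ModularFormClass.qCoeff (heckeT1MF k hℓ hℓN f) n =
      ModularFormClass.qCoeff f (n * ℓ) +
        if ℓ ∣ n then (ℓ : ℂ) ^ (k - 1) *
          ModularFormClass.qCoeff (diamondMF k (primeUnit hℓ hℓN) f) (n / ℓ) else 0 := by
  rw [coe_heckeT1MF, qCoeff_heckeT1 (nice_modular f) k hℓ.ne_zero (primeRep hℓ hℓN)
    (nice_modular (diamondMF k (primeUnit hℓ hℓN) f))]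
  rfl

/-- The same in the `ℓ * n` spelling of the frozen S48 statement. -/
theorem qCoeff_heckeT1Lin' (k : ℤ) {ℓ : ℕ} (hℓ : ℓ.Prime) (hℓN : ¬ ℓ ∣ N)
    (f : CuspForm (Gamma1 N : Subgroup (GL (Fin 2) ℝ)) k) (n : ℕ) :
    ModularFormClass.qCoeff (heckeT1Lin k hℓ hℓN f) n =
      ModularFormClass.qCoeff f (ℓ * n) +
        (ℓ : ℂ) ^ (k - 1) * (if ℓ ∣ n then
          ModularFormClass.qCoeff (diamondLin k (primeUnit hℓ hℓN) f) (n / ℓ) else 0) := by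
  rw [qCoeff_heckeT1Lin, mul_comm n ℓ]
  split_ifs <;> simp

/-! ### Commutation -/

/-- **`T_ℓ` commutes with the diamond operators** (cusp forms). -/
theorem heckeT1Lin_diamondLin_comm (k : ℤ) {ℓ : ℕ} (hℓ : ℓ.Prime) (hℓN : ¬ ℓ ∣ N)
    (d : (ZMod N)ˣ) : Commute (heckeT1Lin (N := N) k hℓ hℓN) (diamondLin k d) := by
  have : Fact ℓ.Prime := ⟨hℓ⟩
  refine LinearMap.ext fun f => DFunLike.coe_injective ?_
  rw [Module.End.mul_apply, Module.End.mul_apply, coe_heckeT1Lin, coe_diamondLin, coe_diamondLin,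
    coe_heckeT1Lin]
  exact (heckeT1_slash_Gamma0 k hℓN _ (primeRep_dvd hℓ hℓN) (primeRep_d hℓ hℓN) ⇑f
    (isG1Inv_of_form f) _ (diamondRep_mem d)).symm

/-- **`T_ℓ` commutes with the diamond operators** (modular forms). -/
theorem heckeT1MF_diamondMF_comm (k : ℤ) {ℓ : ℕ} (hℓ : ℓ.Prime) (hℓN : ¬ ℓ ∣ N)
    (d : (ZMod N)ˣ) : Commute (heckeT1MF (N := N) k hℓ hℓN) (diamondMF k d) := by
  have : Fact ℓ.Prime := ⟨hℓ⟩
  refine LinearMap.ext fun f => DFunLike.coe_injective ?_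
  rw [Module.End.mul_apply, Module.End.mul_apply, coe_heckeT1MF, coe_diamondMF, coe_diamondMF,
    coe_heckeT1MF]
  exact (heckeT1_slash_Gamma0 k hℓN _ (primeRep_dvd hℓ hℓN) (primeRep_d hℓ hℓN) ⇑f
    (isG1Inv_of_form f) _ (diamondRep_mem d)).symm

omit [NeZero N] in
/-- Two cusp forms on `Γ₁(N)` with the same `q`-coefficients are equal. -/
theorem cuspForm_ext_qCoeff {k : ℤ} {f g : CuspForm (Gamma1 N : Subgroup (GL (Fin 2) ℝ)) k}
    (h : ∀ n, ModularFormClass.qCoeff f n = ModularFormClass.qCoeff g n) : f = g :=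
  DFunLike.coe_injective ((nice_cusp f).ext_qCoeff (nice_cusp g) h)

omit [NeZero N] in
/-- Two modular forms on `Γ₁(N)` with the same `q`-coefficients are equal. -/
theorem modularForm_ext_qCoeff {k : ℤ} {f g : ModularForm (Gamma1 N : Subgroup (GL (Fin 2) ℝ)) k}
    (h : ∀ n, ModularFormClass.qCoeff f n = ModularFormClass.qCoeff g n) : f = g :=
  DFunLike.coe_injective ((nice_modular f).ext_qCoeff (nice_modular g) h)

private theorem dvd_div_iff_of_coprime {p q n : ℕ} (hpq : Nat.Coprime q p) (hpn : p ∣ n)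
    (hp : 0 < p) : q ∣ n / p ↔ q ∣ n := by
  obtain ⟨m, rfl⟩ := hpn
  rw [Nat.mul_div_cancel_left _ hp]
  exact (Nat.Coprime.dvd_mul_left hpq).symm

/-- The symmetric expression of `a_n(T_p T_q f)`. -/
private theorem qCoeff_TT (k : ℤ) {p q : ℕ} (hp : p.Prime) (hpN : ¬ p ∣ N) (hq : q.Prime)
    (hqN : ¬ q ∣ N) (hpq : p ≠ q) (f : CuspForm (Gamma1 N : Subgroup (GL (Fin 2) ℝ)) k) (n : ℕ) :
    ModularFormClass.qCoeff (heckeT1Lin k hp hpN (heckeT1Lin k hq hqN f)) n =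
      ModularFormClass.qCoeff f (n * p * q)
      + (if q ∣ n then (q : ℂ) ^ (k - 1) *
          ModularFormClass.qCoeff (diamondLin k (primeUnit hq hqN) f) (n / q * p) else 0)
      + (if p ∣ n then (p : ℂ) ^ (k - 1) *
          ModularFormClass.qCoeff (diamondLin k (primeUnit hp hpN) f) (n / p * q) else 0)
      + (if p * q ∣ n then (p : ℂ) ^ (k - 1) * (q : ℂ) ^ (k - 1) *
          ModularFormClass.qCoeff (diamondLin k (primeUnit hp hpN * primeUnit hq hqN) f)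
            (n / (p * q)) else 0) := by
  have hcop : Nat.Coprime q p := (Nat.coprime_primes hq hp).2 (Ne.symm hpq)
  have hTD : diamondLin k (primeUnit hp hpN) (heckeT1Lin k hq hqN f) =
      heckeT1Lin k hq hqN (diamondLin k (primeUnit hp hpN) f) := by
    have := heckeT1Lin_diamondLin_comm (N := N) k hq hqN (primeUnit hp hpN)
    exact (congrArg (fun T => T f) this.eq).symm
  have hDD : diamondLin k (primeUnit hq hqN) (diamondLin k (primeUnit hp hpN) f) =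
      diamondLin k (primeUnit hp hpN * primeUnit hq hqN) f := by
    rw [mul_comm, diamondLin_mul]; rfl
  rw [qCoeff_heckeT1Lin, qCoeff_heckeT1Lin k hq hqN f (n * p), hTD, qCoeff_heckeT1Lin, hDD]
  have e1 : (q ∣ n * p) ↔ q ∣ n := Nat.Coprime.dvd_mul_right hcop
  have e2 : q ∣ n → n * p / q = n / q * p := fun h => (Nat.div_mul_right_comm h p).symm
  by_cases hpn : p ∣ n
  · have e3 : (q ∣ n / p) ↔ p * q ∣ n := by
      rw [dvd_div_iff_of_coprime hcop hpn hp.pos]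
      constructor
      · intro h; exact Nat.Coprime.mul_dvd_of_dvd_of_dvd hcop.symm hpn h
      · intro h; exact (dvd_mul_left q p).trans h
    have e4 : n / p / q = n / (p * q) := Nat.div_div_eq_div_mul n p q
    simp only [e1, if_pos hpn, e3, e4]
    by_cases hqn : q ∣ n
    · rw [if_pos hqn, if_pos hqn, e2 hqn]
      split_ifs <;> ring
    · have : ¬ p * q ∣ n := fun h => hqn ((dvd_mul_left q p).trans h)
      rw [if_neg hqn, if_neg hqn, if_neg this, if_neg this]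
      ring
  · have : ¬ p * q ∣ n := fun h => hpn ((dvd_mul_right p q).trans h)
    simp only [e1, if_neg hpn, if_neg this, add_zero]
    by_cases hqn : q ∣ n
    · rw [if_pos hqn, if_pos hqn, e2 hqn]
    · rw [if_neg hqn, if_neg hqn]

/-- **The Hecke operators `T_p`, `T_q` on `S_k(Γ₁(N))` commute.** -/
theorem heckeT1Lin_comm (k : ℤ) {p q : ℕ} (hp : p.Prime) (hpN : ¬ p ∣ N) (hq : q.Prime)
    (hqN : ¬ q ∣ N) : Commute (heckeT1Lin (N := N) k hp hpN) (heckeT1Lin k hq hqN) := by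
  rcases eq_or_ne p q with rfl | hpq
  · exact Commute.refl _
  · refine LinearMap.ext fun f => cuspForm_ext_qCoeff fun n => ?_
    rw [Module.End.mul_apply, Module.End.mul_apply, qCoeff_TT k hp hpN hq hqN hpq,
      qCoeff_TT k hq hqN hp hpN (Ne.symm hpq), mul_comm (primeUnit hq hqN) (primeUnit hp hpN),
      mul_comm q p, mul_right_comm n q p]
    split_ifs <;> ring

end Fermat.Agent.DS.Hecke
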