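/-
S48 / GATE-N, node S48-HECKE-NEB (helper18), part 4: the Hecke algebra of `S_k(Γ₁(N))`
generated over `ℤ` by the `T_ℓ` (`ℓ ∤ N`, `ℓ ∉ S`) and ALL diamond operators — the `Γ₁`-twin of
the prelude's `CuspForm.heckeAlgebra` (same instances, same accessor shapes).
-/
import Fermat.Agent.DS.Hecke.HeckeNeb

set_option autoImplicit false

open CongruenceSubgroup Matrix.SpecialLinearGroup UpperHalfPlane
open scoped MatrixGroups ModularForm

noncomputable section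

namespace Fermat.Agent.DS.Hecke

variable (N : ℕ) [NeZero N] (k : ℤ) (S : Set ℕ)

/-- Generators: `T_ℓ` for primes `ℓ ∤ N`, `ℓ ∉ S`, and the diamond operators `⟨d⟩`. -/
def heckeGenerators1 : Set (Module.End ℂ (CuspForm (Gamma1 N : Subgroup (GL (Fin 2) ℝ)) k)) :=
  {T | ∃ (ℓ : ℕ) (hℓ : ℓ.Prime) (hℓN : ¬ ℓ ∣ N), ℓ ∉ S ∧ T = heckeT1Lin k hℓ hℓN} ∪
    {D | ∃ d : (ZMod N)ˣ, D = diamondLin k d}

/-- The Hecke algebra of `S_k(Γ₁(N))` away from `S` (with all diamond operators). -/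
def heckeAlgebra1 :
    Subalgebra ℤ (Module.End ℂ (CuspForm (Gamma1 N : Subgroup (GL (Fin 2) ℝ)) k)) :=
  Algebra.adjoin ℤ (heckeGenerators1 N k S)

variable {N k S}

theorem heckeT1Lin_mem_heckeGenerators1 {ℓ : ℕ} (hℓ : ℓ.Prime) (hℓN : ¬ ℓ ∣ N) (hℓS : ℓ ∉ S) :
    heckeT1Lin k hℓ hℓN ∈ heckeGenerators1 N k S :=
  Or.inl ⟨ℓ, hℓ, hℓN, hℓS, rfl⟩

theorem diamondLin_mem_heckeGenerators1 (d : (ZMod N)ˣ) :
    diamondLin k d ∈ heckeGenerators1 N k S :=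
  Or.inr ⟨d, rfl⟩

theorem heckeT1Lin_mem_heckeAlgebra1 {ℓ : ℕ} (hℓ : ℓ.Prime) (hℓN : ¬ ℓ ∣ N) (hℓS : ℓ ∉ S) :
    heckeT1Lin k hℓ hℓN ∈ heckeAlgebra1 N k S :=
  Algebra.subset_adjoin (heckeT1Lin_mem_heckeGenerators1 hℓ hℓN hℓS)

theorem diamondLin_mem_heckeAlgebra1 (d : (ZMod N)ˣ) : diamondLin k d ∈ heckeAlgebra1 N k S :=
  Algebra.subset_adjoin (diamondLin_mem_heckeGenerators1 d)

theorem heckeGenerators1_mono {S S' : Set ℕ} (h : S ⊆ S') :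
    heckeGenerators1 N k S' ⊆ heckeGenerators1 N k S := by
  rintro T (⟨ℓ, hℓ, hℓN, hℓS, rfl⟩ | ⟨d, rfl⟩)
  · exact heckeT1Lin_mem_heckeGenerators1 hℓ hℓN fun hS => hℓS (h hS)
  · exact diamondLin_mem_heckeGenerators1 d

theorem heckeAlgebra1_mono {S S' : Set ℕ} (h : S ⊆ S') :
    heckeAlgebra1 N k S' ≤ heckeAlgebra1 N k S :=
  Algebra.adjoin_mono (heckeGenerators1_mono h)

theorem commute_of_mem_heckeGenerators1
    {T T' : Module.End ℂ (CuspForm (Gamma1 N : Subgroup (GL (Fin 2) ℝ)) k)}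
    (hT : T ∈ heckeGenerators1 N k S) (hT' : T' ∈ heckeGenerators1 N k S) : Commute T T' := by
  rcases hT with ⟨ℓ, hℓ, hℓN, -, rfl⟩ | ⟨d, rfl⟩ <;>
    rcases hT' with ⟨ℓ', hℓ', hℓ'N, -, rfl⟩ | ⟨d', rfl⟩
  · exact heckeT1Lin_comm k hℓ hℓN hℓ' hℓ'N
  · exact heckeT1Lin_diamondLin_comm k hℓ hℓN d'
  · exact (heckeT1Lin_diamondLin_comm k hℓ' hℓ'N d).symm
  · exact diamondLin_comm k d d'

variable (N k S)

instance heckeAlgebra1.instIsMulCommutative : IsMulCommutative (heckeAlgebra1 N k S) :=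
  Algebra.isMulCommutative_adjoin ℤ fun _ hT _ hT' => commute_of_mem_heckeGenerators1 hT hT'

open scoped IsMulCommutative in
instance heckeAlgebra1.instCommRing : CommRing (heckeAlgebra1 N k S) := inferInstance

instance heckeAlgebra1.instIsAddTorsionFree : IsAddTorsionFree (heckeAlgebra1 N k S) where
  nsmul_right_injective n hn a b hab := by
    apply Subtype.ext
    have h : (n : ℂ) • (a : Module.End ℂ (CuspForm (Gamma1 N : Subgroup (GL (Fin 2) ℝ)) k)) =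
        (n : ℂ) • (b : Module.End ℂ (CuspForm (Gamma1 N : Subgroup (GL (Fin 2) ℝ)) k)) := by
      simp only [Nat.cast_smul_eq_nsmul]
      exact congrArg Subtype.val hab
    exact smul_right_injective _ (Nat.cast_ne_zero.mpr hn) h

variable {N k S}

/-- `T_ℓ` as an element of the Hecke algebra. -/
def heckeAlgebra1.T {ℓ : ℕ} (hℓ : ℓ.Prime) (hℓN : ¬ ℓ ∣ N) (hℓS : ℓ ∉ S) : heckeAlgebra1 N k S :=
  ⟨heckeT1Lin k hℓ hℓN, heckeT1Lin_mem_heckeAlgebra1 hℓ hℓN hℓS⟩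

/-- `⟨d⟩` as an element of the Hecke algebra. -/
def heckeAlgebra1.D (d : (ZMod N)ˣ) : heckeAlgebra1 N k S :=
  ⟨diamondLin k d, diamondLin_mem_heckeAlgebra1 d⟩

@[simp] theorem heckeAlgebra1.coe_T {ℓ : ℕ} (hℓ : ℓ.Prime) (hℓN : ¬ ℓ ∣ N) (hℓS : ℓ ∉ S) :
    ((heckeAlgebra1.T hℓ hℓN hℓS : heckeAlgebra1 N k S) :
      Module.End ℂ (CuspForm (Gamma1 N : Subgroup (GL (Fin 2) ℝ)) k)) = heckeT1Lin k hℓ hℓN := rfl

@[simp] theorem heckeAlgebra1.coe_D (d : (ZMod N)ˣ) :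
    ((heckeAlgebra1.D d : heckeAlgebra1 N k S) :
      Module.End ℂ (CuspForm (Gamma1 N : Subgroup (GL (Fin 2) ℝ)) k)) = diamondLin k d := rfl

theorem heckeAlgebra1.D_mul (d d' : (ZMod N)ˣ) :
    (heckeAlgebra1.D (d * d') : heckeAlgebra1 N k S) = heckeAlgebra1.D d * heckeAlgebra1.D d' :=
  Subtype.ext (diamondLin_mul k d d')

theorem heckeAlgebra1.D_one : (heckeAlgebra1.D 1 : heckeAlgebra1 N k S) = 1 :=
  Subtype.ext (diamondLin_one k)

/-- The diamond operators as a monoid hom into the Hecke algebra. -/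
def heckeAlgebra1.DHom : (ZMod N)ˣ →* heckeAlgebra1 N k S where
  toFun := heckeAlgebra1.D
  map_one' := heckeAlgebra1.D_one
  map_mul' := heckeAlgebra1.D_mul

end Fermat.Agent.DS.Hecke

end
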