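/-
S48 / GATE-N, node S48-HECKE-NEB (helper18): diamond operators on `Γ₁(N)`-forms.

For `g ∈ Γ₀(N)` the slash `f ↦ f ∣[k] g` preserves `Γ₁(N)`-invariance (normality of `Γ₁(N)` in
`Γ₀(N)`) and only depends on the class `d = g 1 1 mod N`.  This gives
`diamondMF k d`, `diamondLin k d : Module.End ℂ (CuspForm (Gamma1 N) k)` for `d : (ZMod N)ˣ`,
multiplicative in `d`.
-/
import Mathlib
import Fermat.Prelude.Def_ModularForm_HeckeOperatorForms
import Fermat.Prelude.Def_FLTPrelim_Modularity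

set_option autoImplicit false

open CongruenceSubgroup Matrix.SpecialLinearGroup UpperHalfPlane
open scoped MatrixGroups ModularForm

namespace Fermat.Agent.DS.Hecke

variable {N : ℕ}

/-! ### `Γ₁(N)` inside `Γ₀(N)` -/

/-- The lower right entry mod `N` is multiplicative on `Γ₀(N)`. -/
theorem d_mul {g h : SL(2, ℤ)} (hg : g ∈ Gamma0 N) (hh : h ∈ Gamma0 N) :
    (((g * h) 1 1 : ℤ) : ZMod N) = ((g 1 1 : ℤ) : ZMod N) * ((h 1 1 : ℤ) : ZMod N) :=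
  (Gamma0Map N).map_mul ⟨g, hg⟩ ⟨h, hh⟩

theorem d_one : (((1 : SL(2, ℤ)) 1 1 : ℤ) : ZMod N) = 1 := by simp

/-- On `Γ₀(N)`: `a * d ≡ 1`. -/
theorem a_mul_d {g : SL(2, ℤ)} (hg : g ∈ Gamma0 N) :
    ((g 0 0 : ℤ) : ZMod N) * ((g 1 1 : ℤ) : ZMod N) = 1 := by
  have hdet : g.1.det = 1 := g.2
  rw [Matrix.det_fin_two] at hdet
  have h2 : ((g 0 0 * g 1 1 - g 0 1 * g 1 0 : ℤ) : ZMod N) = 1 := by
    have := congrArg (fun z : ℤ => (z : ZMod N)) hdet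
    simpa using this
  have hc : ((g 1 0 : ℤ) : ZMod N) = 0 := Gamma0_mem.mp hg
  push_cast at h2
  rw [hc, mul_zero, sub_zero] at h2
  exact h2

theorem mem_Gamma1_iff_of_mem_Gamma0 {g : SL(2, ℤ)} (hg : g ∈ Gamma0 N) :
    g ∈ Gamma1 N ↔ ((g 1 1 : ℤ) : ZMod N) = 1 := by
  rw [Gamma1_mem]
  constructor
  · exact fun h => h.2.1
  · intro h
    refine ⟨?_, h, Gamma0_mem.mp hg⟩
    have := a_mul_d hg
    rwa [h, mul_one] at this

theorem d_inv {g : SL(2, ℤ)} (hg : g ∈ Gamma0 N) :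
    ((g⁻¹ 1 1 : ℤ) : ZMod N) * ((g 1 1 : ℤ) : ZMod N) = 1 := by
  rw [← d_mul (inv_mem hg) hg, inv_mul_cancel, d_one]

/-- Two elements of `Γ₀(N)` in the same `d`-class differ by an element of `Γ₁(N)`. -/
theorem mul_inv_mem_Gamma1 {g g' : SL(2, ℤ)} (hg : g ∈ Gamma0 N) (hg' : g' ∈ Gamma0 N)
    (h : ((g' 1 1 : ℤ) : ZMod N) = ((g 1 1 : ℤ) : ZMod N)) : g' * g⁻¹ ∈ Gamma1 N := by
  rw [mem_Gamma1_iff_of_mem_Gamma0 (mul_mem hg' (inv_mem hg)), d_mul hg' (inv_mem hg), h,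
    mul_comm]
  exact d_inv hg

/-- `Γ₁(N)` is normalised by `Γ₀(N)`. -/
theorem conj_mem_Gamma1 {g γ : SL(2, ℤ)} (hg : g ∈ Gamma0 N) (hγ : γ ∈ Gamma1 N) :
    g * γ * g⁻¹ ∈ Gamma1 N := by
  have hγ0 : γ ∈ Gamma0 N := Gamma1_in_Gamma0 N hγ
  rw [mem_Gamma1_iff_of_mem_Gamma0 (mul_mem (mul_mem hg hγ0) (inv_mem hg)),
    d_mul (mul_mem hg hγ0) (inv_mem hg), d_mul hg hγ0,
    (mem_Gamma1_iff_of_mem_Gamma0 hγ0).1 hγ, mul_one, mul_comm]
  exact d_inv hg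

/-- Every unit `d` of `ZMod N` is the `d`-class of an element of `Γ₀(N)`. -/
theorem exists_mem_Gamma0_d [NeZero N] (d : (ZMod N)ˣ) :
    ∃ g : SL(2, ℤ), g ∈ Gamma0 N ∧ ((g 1 1 : ℤ) : ZMod N) = d := by
  have hcop : Nat.Coprime (d : ZMod N).val N := ZMod.val_coe_unit_coprime d
  have hco : IsCoprime (((d : ZMod N).val : ℕ) : ℤ) (N : ℤ) := Nat.isCoprime_iff_coprime.2 hcop
  obtain ⟨a, b, hab⟩ := hco
  have hdet : (!![a, -b; (N : ℤ), ((d : ZMod N).val : ℤ)] : Matrix (Fin 2) (Fin 2) ℤ).det = 1 := by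
    rw [Matrix.det_fin_two_of]; linarith
  let g : SL(2, ℤ) := ⟨!![a, -b; (N : ℤ), ((d : ZMod N).val : ℤ)], hdet⟩
  refine ⟨g, ?_, ?_⟩
  · change (((!![a, -b; (N : ℤ), ((d : ZMod N).val : ℤ)] : Matrix (Fin 2) (Fin 2) ℤ) 1 0 : ℤ) :
      ZMod N) = 0
    simp
  · change (((!![a, -b; (N : ℤ), ((d : ZMod N).val : ℤ)] : Matrix (Fin 2) (Fin 2) ℤ) 1 1 : ℤ) :
      ZMod N) = d
    simp

/-! ### Slash action of `Γ₀(N)` on `Γ₁(N)`-invariant functions -/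

/-- `f` is invariant under the weight-`k` slash action of `Γ₁(N)`. -/
def IsG1Inv (N : ℕ) (k : ℤ) (f : ℍ → ℂ) : Prop :=
  ∀ γ : SL(2, ℤ), γ ∈ Gamma1 N → f ∣[k] (mapGL ℝ γ) = f

theorem isG1Inv_of_form {k : ℤ} {F : Type*} [FunLike F ℍ ℂ]
    [SlashInvariantFormClass F (Gamma1 N : Subgroup (GL (Fin 2) ℝ)) k] (f : F) :
    IsG1Inv N k ⇑f :=
  fun γ hγ => SlashInvariantFormClass.slash_action_eq f _ ⟨γ, hγ, rfl⟩

theorem IsG1Inv.slash {k : ℤ} {f : ℍ → ℂ} (hf : IsG1Inv N k f) {g : SL(2, ℤ)}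
    (hg : g ∈ Gamma0 N) : IsG1Inv N k (f ∣[k] (mapGL ℝ g)) := by
  intro γ hγ
  have h1 : mapGL ℝ g * mapGL ℝ γ = mapGL ℝ (g * γ * g⁻¹) * mapGL ℝ g := by
    rw [← map_mul, ← map_mul]; congr 1; group
  rw [← SlashAction.slash_mul, h1, SlashAction.slash_mul, hf _ (conj_mem_Gamma1 hg hγ)]

/-- The slash by `g ∈ Γ₀(N)` of a `Γ₁(N)`-invariant function only depends on `g 1 1 mod N`. -/
theorem IsG1Inv.slash_congr {k : ℤ} {f : ℍ → ℂ} (hf : IsG1Inv N k f) {g g' : SL(2, ℤ)}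
    (hg : g ∈ Gamma0 N) (hg' : g' ∈ Gamma0 N)
    (h : ((g' 1 1 : ℤ) : ZMod N) = ((g 1 1 : ℤ) : ZMod N)) :
    f ∣[k] (mapGL ℝ g') = f ∣[k] (mapGL ℝ g) := by
  have h1 : mapGL ℝ g' = mapGL ℝ (g' * g⁻¹) * mapGL ℝ g := by
    rw [← map_mul]; congr 1; group
  rw [h1, SlashAction.slash_mul, hf _ (mul_inv_mem_Gamma1 hg hg' h)]

theorem IsG1Inv.slash_of_d_eq_one {k : ℤ} {f : ℍ → ℂ} (hf : IsG1Inv N k f) {g : SL(2, ℤ)}
    (hg : g ∈ Gamma0 N) (h : ((g 1 1 : ℤ) : ZMod N) = 1) : f ∣[k] (mapGL ℝ g) = f :=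
  hf g ((mem_Gamma1_iff_of_mem_Gamma0 hg).2 h)

theorem IsG1Inv.add {k : ℤ} {f f' : ℍ → ℂ} (hf : IsG1Inv N k f) (hf' : IsG1Inv N k f') :
    IsG1Inv N k (f + f') := fun γ hγ => by
  rw [SlashAction.add_slash, hf γ hγ, hf' γ hγ]

theorem IsG1Inv.neg {k : ℤ} {f : ℍ → ℂ} (hf : IsG1Inv N k f) : IsG1Inv N k (-f) := fun γ hγ => by
  rw [SlashAction.neg_slash, hf γ hγ]

theorem IsG1Inv.sub {k : ℤ} {f f' : ℍ → ℂ} (hf : IsG1Inv N k f) (hf' : IsG1Inv N k f') :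
    IsG1Inv N k (f - f') := by
  rw [sub_eq_add_neg]; exact hf.add hf'.neg

open ConjAct Pointwise in
/-- Conjugation by an element of `Γ₀(N)` fixes (the image in `GL₂(ℝ)` of) `Γ₁(N)`. -/
theorem conjAct_smul_Gamma1 {g : SL(2, ℤ)} (hg : g ∈ Gamma0 N) :
    toConjAct (mapGL ℝ g)⁻¹ • ((Gamma1 N : Subgroup SL(2, ℤ)) : Subgroup (GL (Fin 2) ℝ)) =
      ((Gamma1 N : Subgroup SL(2, ℤ)) : Subgroup (GL (Fin 2) ℝ)) := by
  ext x
  rw [Subgroup.mem_pointwise_smul_iff_inv_smul_mem, ← map_inv, inv_inv, ConjAct.smul_def,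
    ConjAct.ofConjAct_toConjAct]
  constructor
  · rintro ⟨γ, hγ, hγx⟩
    refine ⟨g⁻¹ * γ * g, ?_, ?_⟩
    · have := conj_mem_Gamma1 (inv_mem hg) hγ
      rwa [inv_inv] at this
    · rw [map_mul, map_mul, hγx, map_inv]; group
  · rintro ⟨γ, hγ, rfl⟩
    exact ⟨g * γ * g⁻¹, conj_mem_Gamma1 hg hγ, by rw [map_mul, map_mul, map_inv]⟩

/-! ### Diamond operators on forms -/

/-- Slash by `g ∈ Γ₀(N)` as a map of modular forms on `Γ₁(N)`. -/
noncomputable def slashGamma0MF (k : ℤ) {g : SL(2, ℤ)} (hg : g ∈ Gamma0 N)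
    (f : ModularForm (Gamma1 N : Subgroup (GL (Fin 2) ℝ)) k) :
    ModularForm (Gamma1 N : Subgroup (GL (Fin 2) ℝ)) k :=
  ModularForm.mcast rfl (ModularForm.translate f (mapGL ℝ g)) (conjAct_smul_Gamma1 hg).symm

@[simp] theorem coe_slashGamma0MF (k : ℤ) {g : SL(2, ℤ)} (hg : g ∈ Gamma0 N)
    (f : ModularForm (Gamma1 N : Subgroup (GL (Fin 2) ℝ)) k) :
    ⇑(slashGamma0MF k hg f) = ⇑f ∣[k] (mapGL ℝ g) := rfl

/-- Slash by `g ∈ Γ₀(N)` as a map of cusp forms on `Γ₁(N)`. -/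
noncomputable def slashGamma0CF (k : ℤ) {g : SL(2, ℤ)} (hg : g ∈ Gamma0 N)
    (f : CuspForm (Gamma1 N : Subgroup (GL (Fin 2) ℝ)) k) :
    CuspForm (Gamma1 N : Subgroup (GL (Fin 2) ℝ)) k :=
  CuspForm.mcast rfl (CuspForm.translate f (mapGL ℝ g)) (conjAct_smul_Gamma1 hg).symm

@[simp] theorem coe_slashGamma0CF (k : ℤ) {g : SL(2, ℤ)} (hg : g ∈ Gamma0 N)
    (f : CuspForm (Gamma1 N : Subgroup (GL (Fin 2) ℝ)) k) :
    ⇑(slashGamma0CF k hg f) = ⇑f ∣[k] (mapGL ℝ g) := rfl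

/-- A chosen representative in `Γ₀(N)` of the class `d`. -/
noncomputable def diamondRep [NeZero N] (d : (ZMod N)ˣ) : SL(2, ℤ) :=
  (exists_mem_Gamma0_d d).choose

theorem diamondRep_mem [NeZero N] (d : (ZMod N)ˣ) : diamondRep d ∈ Gamma0 N :=
  (exists_mem_Gamma0_d d).choose_spec.1

theorem diamondRep_d [NeZero N] (d : (ZMod N)ˣ) :
    (((diamondRep d) 1 1 : ℤ) : ZMod N) = d :=
  (exists_mem_Gamma0_d d).choose_spec.2

/-- The diamond operator `⟨d⟩` on modular forms for `Γ₁(N)`. -/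
noncomputable def diamondMF (k : ℤ) [NeZero N] (d : (ZMod N)ˣ) :
    Module.End ℂ (ModularForm (Gamma1 N : Subgroup (GL (Fin 2) ℝ)) k) where
  toFun f := slashGamma0MF k (diamondRep_mem d) f
  map_add' f f' := DFunLike.coe_injective <| by
    show (⇑(f + f')) ∣[k] (mapGL ℝ (diamondRep d)) = _
    rw [FunLike.coe_add, SlashAction.add_slash]; rfl
  map_smul' c f := DFunLike.coe_injective <| by
    show (⇑(c • f)) ∣[k] (mapGL ℝ (diamondRep d)) = c • (⇑f ∣[k] (mapGL ℝ (diamondRep d)))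
    rw [FunLike.coe_smul]
    exact ModularForm.SL_smul_slash k (diamondRep d) (⇑f) c

/-- The diamond operator `⟨d⟩` on cusp forms for `Γ₁(N)`. -/
noncomputable def diamondLin (k : ℤ) [NeZero N] (d : (ZMod N)ˣ) :
    Module.End ℂ (CuspForm (Gamma1 N : Subgroup (GL (Fin 2) ℝ)) k) where
  toFun f := slashGamma0CF k (diamondRep_mem d) f
  map_add' f f' := DFunLike.coe_injective <| by
    show (⇑(f + f')) ∣[k] (mapGL ℝ (diamondRep d)) = _
    rw [FunLike.coe_add, SlashAction.add_slash]; rfl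
  map_smul' c f := DFunLike.coe_injective <| by
    show (⇑(c • f)) ∣[k] (mapGL ℝ (diamondRep d)) = c • (⇑f ∣[k] (mapGL ℝ (diamondRep d)))
    rw [FunLike.coe_smul]
    exact ModularForm.SL_smul_slash k (diamondRep d) (⇑f) c

theorem coe_diamondMF (k : ℤ) [NeZero N] (d : (ZMod N)ˣ)
    (f : ModularForm (Gamma1 N : Subgroup (GL (Fin 2) ℝ)) k) :
    ⇑(diamondMF k d f) = ⇑f ∣[k] (mapGL ℝ (diamondRep d)) := rfl

theorem coe_diamondLin (k : ℤ) [NeZero N] (d : (ZMod N)ˣ)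
    (f : CuspForm (Gamma1 N : Subgroup (GL (Fin 2) ℝ)) k) :
    ⇑(diamondLin k d f) = ⇑f ∣[k] (mapGL ℝ (diamondRep d)) := rfl

/-- `⟨d⟩ f = f ∣ g` for ANY `g ∈ Γ₀(N)` with `g 1 1 ≡ d`. -/
theorem coe_diamondMF_eq (k : ℤ) [NeZero N] (d : (ZMod N)ˣ)
    (f : ModularForm (Gamma1 N : Subgroup (GL (Fin 2) ℝ)) k) {g : SL(2, ℤ)} (hg : g ∈ Gamma0 N)
    (hd : ((g 1 1 : ℤ) : ZMod N) = d) : ⇑(diamondMF k d f) = ⇑f ∣[k] (mapGL ℝ g) := by
  rw [coe_diamondMF]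
  exact (isG1Inv_of_form f).slash_congr hg (diamondRep_mem d) (by rw [diamondRep_d, hd])

theorem coe_diamondLin_eq (k : ℤ) [NeZero N] (d : (ZMod N)ˣ)
    (f : CuspForm (Gamma1 N : Subgroup (GL (Fin 2) ℝ)) k) {g : SL(2, ℤ)} (hg : g ∈ Gamma0 N)
    (hd : ((g 1 1 : ℤ) : ZMod N) = d) : ⇑(diamondLin k d f) = ⇑f ∣[k] (mapGL ℝ g) := by
  rw [coe_diamondLin]
  exact (isG1Inv_of_form f).slash_congr hg (diamondRep_mem d) (by rw [diamondRep_d, hd])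

theorem diamondMF_one (k : ℤ) [NeZero N] : diamondMF k (1 : (ZMod N)ˣ) = 1 := by
  refine LinearMap.ext fun f => DFunLike.coe_injective ?_
  rw [coe_diamondMF_eq k 1 f (one_mem _) (by simp)]
  simp

theorem diamondLin_one (k : ℤ) [NeZero N] : diamondLin k (1 : (ZMod N)ˣ) = 1 := by
  refine LinearMap.ext fun f => DFunLike.coe_injective ?_
  rw [coe_diamondLin_eq k 1 f (one_mem _) (by simp)]
  simp

theorem diamondMF_mul (k : ℤ) [NeZero N] (d d' : (ZMod N)ˣ) :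
    diamondMF k (d * d') = diamondMF k d * diamondMF k d' := by
  refine LinearMap.ext fun f => DFunLike.coe_injective ?_
  rw [Module.End.mul_apply, coe_diamondMF k d, coe_diamondMF k d',
    coe_diamondMF_eq k (d * d') f (mul_mem (diamondRep_mem d') (diamondRep_mem d))
      (by rw [d_mul (diamondRep_mem d') (diamondRep_mem d), diamondRep_d, diamondRep_d,
        Units.val_mul, mul_comm]),
    map_mul, SlashAction.slash_mul]

theorem diamondLin_mul (k : ℤ) [NeZero N] (d d' : (ZMod N)ˣ) :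
    diamondLin k (d * d') = diamondLin k d * diamondLin k d' := by
  refine LinearMap.ext fun f => DFunLike.coe_injective ?_
  rw [Module.End.mul_apply, coe_diamondLin k d, coe_diamondLin k d',
    coe_diamondLin_eq k (d * d') f (mul_mem (diamondRep_mem d') (diamondRep_mem d))
      (by rw [d_mul (diamondRep_mem d') (diamondRep_mem d), diamondRep_d, diamondRep_d,
        Units.val_mul, mul_comm]),
    map_mul, SlashAction.slash_mul]

/-- Diamond operators as a monoid hom `(ZMod N)ˣ →* End(S_k(Γ₁(N)))`. -/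
noncomputable def diamondHom (k : ℤ) [NeZero N] :
    (ZMod N)ˣ →* Module.End ℂ (CuspForm (Gamma1 N : Subgroup (GL (Fin 2) ℝ)) k) where
  toFun := diamondLin k
  map_one' := diamondLin_one k
  map_mul' := diamondLin_mul k

/-- Diamond operators as a monoid hom `(ZMod N)ˣ →* End(M_k(Γ₁(N)))`. -/
noncomputable def diamondHomMF (k : ℤ) [NeZero N] :
    (ZMod N)ˣ →* Module.End ℂ (ModularForm (Gamma1 N : Subgroup (GL (Fin 2) ℝ)) k) where
  toFun := diamondMF k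
  map_one' := diamondMF_one k
  map_mul' := diamondMF_mul k

theorem diamondLin_comm (k : ℤ) [NeZero N] (d d' : (ZMod N)ˣ) :
    Commute (diamondLin (N := N) k d) (diamondLin k d') := by
  rw [Commute, SemiconjBy, ← diamondLin_mul, ← diamondLin_mul, mul_comm]

theorem diamondMF_comm (k : ℤ) [NeZero N] (d d' : (ZMod N)ˣ) :
    Commute (diamondMF (N := N) k d) (diamondMF k d') := by
  rw [Commute, SemiconjBy, ← diamondMF_mul, ← diamondMF_mul, mul_comm]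

end Fermat.Agent.DS.Hecke
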