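/-
S48 / GATE-N, node S48-HECKE-NEB-GEN (helper18): adapters on `heckeAlgebra1 N k S` for the
consumers of the Hecke layer (LAT1, N3-MAIN, N3-THETA, P5, TOP).

* `heckeAlgebra1.act` : the inclusion `heckeAlgebra1 N k S →+* Module.End ℂ (CuspForm (Γ₁ N) k)`,
  injective;
* `heckeAlgebra1.Idx`, `heckeAlgebra1.gen`, `opLin` : the generators as ONE indexed family
  (good primes `⊕` units), with `Subring.closure (Set.range gen) = ⊤`, an induction principle
  and extensionality of ring homomorphisms;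
* `coeffLin` : the `q`-coefficient map as a linear map, injective, with the coefficient formula of
  `T_ℓ` in `act` form;
* eigen-bridges from function-level facts (`diamondLin_eq_smul_of_slash`,
  `heckeT1Lin_eq_smul_of_heckeT1`);
* `exists_eigenCharacter` : a common eigenvector of a generating set gives a ring homomorphism to
  `ℂ`; and the corollaries for the frozen S48 binders (through `DS/N0/Nebentypus`).
-/
import Fermat.Agent.DS.Hecke.HeckeAlgebra1
import Fermat.Agent.DS.N0.Nebentypus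

set_option autoImplicit false

open CongruenceSubgroup Matrix.SpecialLinearGroup UpperHalfPlane
open scoped MatrixGroups ModularForm

noncomputable section

namespace Fermat.Agent.DS.Hecke

open Fermat.Agent.DS.N0 (heckeT1)

variable {N : ℕ} [NeZero N] {k : ℤ} {S : Set ℕ}

/-! ### The action -/

variable (N k S) in
/-- The inclusion of the Hecke algebra into the endomorphism ring of `S_k(Γ₁(N))`. -/
def heckeAlgebra1.act :
    heckeAlgebra1 N k S →+* Module.End ℂ (CuspForm (Gamma1 N : Subgroup (GL (Fin 2) ℝ)) k) :=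
  (heckeAlgebra1 N k S).val.toRingHom

@[simp] theorem heckeAlgebra1.act_apply (t : heckeAlgebra1 N k S) :
    heckeAlgebra1.act N k S t = (t : Module.End ℂ _) := rfl

theorem heckeAlgebra1.act_injective : Function.Injective (heckeAlgebra1.act N k S) :=
  fun _ _ h => Subtype.ext h

theorem heckeAlgebra1.act_T {ℓ : ℕ} (hℓ : ℓ.Prime) (hℓN : ¬ ℓ ∣ N) (hℓS : ℓ ∉ S) :
    heckeAlgebra1.act N k S (heckeAlgebra1.T hℓ hℓN hℓS) = heckeT1Lin k hℓ hℓN := rfl

theorem heckeAlgebra1.act_D (d : (ZMod N)ˣ) :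
    heckeAlgebra1.act N k S (heckeAlgebra1.D d) = diamondLin k d := rfl

/-! ### The generators as one indexed family -/

variable (N S) in
/-- Index set of the generators: good primes and units of `ZMod N`. -/
def heckeAlgebra1.Idx : Type := {ℓ : ℕ // ℓ.Prime ∧ ¬ ℓ ∣ N ∧ ℓ ∉ S} ⊕ (ZMod N)ˣ

variable (k) in
/-- The generators of the Hecke algebra, as elements. -/
def heckeAlgebra1.gen : heckeAlgebra1.Idx N S → heckeAlgebra1 N k S
  | Sum.inl ℓ => heckeAlgebra1.T ℓ.2.1 ℓ.2.2.1 ℓ.2.2.2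
  | Sum.inr d => heckeAlgebra1.D d

variable (k) in
/-- The generators of the Hecke algebra, as operators. -/
def opLin : heckeAlgebra1.Idx N S →
    Module.End ℂ (CuspForm (Gamma1 N : Subgroup (GL (Fin 2) ℝ)) k)
  | Sum.inl ℓ => heckeT1Lin k ℓ.2.1 ℓ.2.2.1
  | Sum.inr d => diamondLin k d

theorem heckeAlgebra1.act_gen (i : heckeAlgebra1.Idx N S) :
    heckeAlgebra1.act N k S (heckeAlgebra1.gen k i) = opLin k i := by
  cases i <;> rfl

@[simp] theorem heckeAlgebra1.gen_inl (ℓ : {ℓ : ℕ // ℓ.Prime ∧ ¬ ℓ ∣ N ∧ ℓ ∉ S}) :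
    heckeAlgebra1.gen k (Sum.inl ℓ : heckeAlgebra1.Idx N S)
      = heckeAlgebra1.T ℓ.2.1 ℓ.2.2.1 ℓ.2.2.2 := rfl

@[simp] theorem heckeAlgebra1.gen_inr (d : (ZMod N)ˣ) :
    heckeAlgebra1.gen k (Sum.inr d : heckeAlgebra1.Idx N S) = heckeAlgebra1.D d := rfl

theorem heckeAlgebra1.T_mem_range_gen {ℓ : ℕ} (hℓ : ℓ.Prime) (hℓN : ¬ ℓ ∣ N) (hℓS : ℓ ∉ S) :
    (heckeAlgebra1.T hℓ hℓN hℓS : heckeAlgebra1 N k S) ∈ Set.range (heckeAlgebra1.gen k) :=
  ⟨Sum.inl ⟨ℓ, hℓ, hℓN, hℓS⟩, rfl⟩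

theorem heckeAlgebra1.D_mem_range_gen (d : (ZMod N)ˣ) :
    (heckeAlgebra1.D d : heckeAlgebra1 N k S) ∈ Set.range (heckeAlgebra1.gen k) :=
  ⟨Sum.inr d, rfl⟩

/-- **The generators generate**: the subring of `heckeAlgebra1 N k S` generated by the `T_ℓ`
(`ℓ ∤ N`, `ℓ ∉ S`) and the diamond operators is everything. -/
theorem heckeAlgebra1.closure_range_gen :
    Subring.closure (Set.range (heckeAlgebra1.gen (N := N) (S := S) k)) = ⊤ := by
  rw [eq_top_iff]
  rintro ⟨x, hx⟩ -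
  have key : ∀ (y : Module.End ℂ (CuspForm (Gamma1 N : Subgroup (GL (Fin 2) ℝ)) k))
      (hy : y ∈ Algebra.adjoin ℤ (heckeGenerators1 N k S)),
      (⟨y, hy⟩ : heckeAlgebra1 N k S) ∈
        Subring.closure (Set.range (heckeAlgebra1.gen (N := N) (S := S) k)) := by
    intro y hy
    induction hy using Algebra.adjoin_induction with
    | mem y hy =>
      apply Subring.subset_closure
      rcases hy with ⟨ℓ, hℓ, hℓN, hℓS, rfl⟩ | ⟨d, rfl⟩
      · exact heckeAlgebra1.T_mem_range_gen hℓ hℓN hℓS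
      · exact heckeAlgebra1.D_mem_range_gen d
    | algebraMap r =>
      have : (⟨algebraMap ℤ _ r, Subalgebra.algebraMap_mem _ r⟩ : heckeAlgebra1 N k S)
          = ((r : ℤ) : heckeAlgebra1 N k S) := by
        apply Subtype.ext
        simp
      rw [this]
      exact intCast_mem _ r
    | add y z hy hz ihy ihz =>
      have : (⟨y + z, Subalgebra.add_mem _ hy hz⟩ : heckeAlgebra1 N k S)
          = ⟨y, hy⟩ + ⟨z, hz⟩ := rfl
      rw [this]
      exact add_mem ihy ihz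
    | mul y z hy hz ihy ihz =>
      have : (⟨y * z, Subalgebra.mul_mem _ hy hz⟩ : heckeAlgebra1 N k S)
          = ⟨y, hy⟩ * ⟨z, hz⟩ := rfl
      rw [this]
      exact mul_mem ihy ihz
  exact key x hx

/-- Induction principle for the Hecke algebra. -/
theorem heckeAlgebra1.induction_on {P : heckeAlgebra1 N k S → Prop}
    (hT : ∀ {ℓ : ℕ} (hℓ : ℓ.Prime) (hℓN : ¬ ℓ ∣ N) (hℓS : ℓ ∉ S),
      P (heckeAlgebra1.T hℓ hℓN hℓS))
    (hD : ∀ d : (ZMod N)ˣ, P (heckeAlgebra1.D d))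
    (h0 : P 0) (h1 : P 1) (hadd : ∀ x y, P x → P y → P (x + y)) (hneg : ∀ x, P x → P (-x))
    (hmul : ∀ x y, P x → P y → P (x * y)) (t : heckeAlgebra1 N k S) : P t := by
  have ht : t ∈ Subring.closure (Set.range (heckeAlgebra1.gen (N := N) (S := S) k)) := by
    rw [heckeAlgebra1.closure_range_gen]; exact Subring.mem_top t
  induction ht using Subring.closure_induction with
  | mem x hx =>
    obtain ⟨i, rfl⟩ := hx
    cases i with
    | inl ℓ => exact hT ℓ.2.1 ℓ.2.2.1 ℓ.2.2.2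
    | inr d => exact hD d
  | zero => exact h0
  | one => exact h1
  | add x y _ _ hx hy => exact hadd x y hx hy
  | neg x _ hx => exact hneg x hx
  | mul x y _ _ hx hy => exact hmul x y hx hy

/-- Two ring homomorphisms out of the Hecke algebra which agree on all `T_ℓ` and all `⟨d⟩` are
equal. -/
theorem heckeAlgebra1.ringHom_ext {R : Type*} [Semiring R]
    {f g : heckeAlgebra1 N k S →+* R}
    (hT : ∀ {ℓ : ℕ} (hℓ : ℓ.Prime) (hℓN : ¬ ℓ ∣ N) (hℓS : ℓ ∉ S),
      f (heckeAlgebra1.T hℓ hℓN hℓS) = g (heckeAlgebra1.T hℓ hℓN hℓS))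
    (hD : ∀ d : (ZMod N)ˣ, f (heckeAlgebra1.D d) = g (heckeAlgebra1.D d)) : f = g := by
  have h : Set.EqOn f g (Set.range (heckeAlgebra1.gen (N := N) (S := S) k)) := by
    rintro _ ⟨i, rfl⟩
    cases i with
    | inl ℓ => exact hT ℓ.2.1 ℓ.2.2.1 ℓ.2.2.2
    | inr d => exact hD d
  exact RingHom.eq_of_eqOn_set_dense heckeAlgebra1.closure_range_gen h

/-! ### The `q`-coefficient map -/

variable (N k) in
/-- The `q`-coefficients (at the cusp `∞`, period `1`) as a linear map. -/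
def coeffLin : CuspForm (Gamma1 N : Subgroup (GL (Fin 2) ℝ)) k →ₗ[ℂ] (ℕ → ℂ) where
  toFun f n := ModularFormClass.qCoeff f n
  map_add' f g := by
    funext n
    exact Fermat.Agent.DS.N0.NiceAtInfty.qCoeff_add (Fermat.Agent.DS.N0.nice_cusp f)
      (Fermat.Agent.DS.N0.nice_cusp g) n
  map_smul' c f := by
    funext n
    exact Fermat.Agent.DS.N0.NiceAtInfty.qCoeff_smul c (Fermat.Agent.DS.N0.nice_cusp f) n

omit [NeZero N] in
@[simp] theorem coeffLin_apply (f : CuspForm (Gamma1 N : Subgroup (GL (Fin 2) ℝ)) k) (n : ℕ) :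
    coeffLin N k f n = ModularFormClass.qCoeff f n := rfl

omit [NeZero N] in
theorem coeffLin_injective : Function.Injective (coeffLin N k) := fun _ _ h =>
  cuspForm_ext_qCoeff fun n => congrFun h n

/-- The coefficient formula of `T_ℓ` in `act` form (the shape of the abstract eigencharacter
lemmas). -/
theorem coeffLin_act_T {ℓ : ℕ} (hℓ : ℓ.Prime) (hℓN : ¬ ℓ ∣ N) (hℓS : ℓ ∉ S)
    (g : CuspForm (Gamma1 N : Subgroup (GL (Fin 2) ℝ)) k) (n : ℕ) :
    coeffLin N k (heckeAlgebra1.act N k S (heckeAlgebra1.T hℓ hℓN hℓS) g) n =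
      coeffLin N k g (ℓ * n) + (ℓ : ℂ) ^ (k - 1) * (if ℓ ∣ n then
        coeffLin N k (heckeAlgebra1.act N k S (heckeAlgebra1.D (primeUnit hℓ hℓN)) g) (n / ℓ)
          else 0) :=
  qCoeff_heckeT1Lin' k hℓ hℓN g n

/-! ### Eigen-bridges from function-level facts -/

/-- A form with nebentypus `χ` (in slash form on `Γ₀(N)`) is an eigenvector of every diamond
operator. -/
theorem diamondLin_eq_smul_of_slash (f : CuspForm (Gamma1 N : Subgroup (GL (Fin 2) ℝ)) k)
    (χ : ZMod N → ℂ)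
    (h : ∀ σ : SL(2, ℤ), σ ∈ Gamma0 N →
      (f : ℍ → ℂ) ∣[k] mapGL ℝ σ = χ ((σ 1 1 : ℤ) : ZMod N) • (f : ℍ → ℂ))
    (d : (ZMod N)ˣ) : diamondLin k d f = χ d • f := by
  apply DFunLike.coe_injective
  rw [coe_diamondLin, h _ (diamondRep_mem d), diamondRep_d]
  rfl

/-- A function-level `T_ℓ`-eigenvector (for ONE admissible `σ`) is an eigenvector of
`heckeT1Lin`. -/
theorem heckeT1Lin_eq_smul_of_heckeT1 {ℓ : ℕ} (hℓ : ℓ.Prime) (hℓN : ¬ ℓ ∣ N)
    (f : CuspForm (Gamma1 N : Subgroup (GL (Fin 2) ℝ)) k) {σ : SL(2, ℤ)} (hσ : σ ∈ Gamma0 N)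
    (hσ1 : ((σ 1 1 : ℤ) : ZMod N) = (ℓ : ZMod N)) (a : ℂ)
    (h : heckeT1 k ℓ σ (f : ℍ → ℂ) = a • (f : ℍ → ℂ)) : heckeT1Lin k hℓ hℓN f = a • f := by
  apply DFunLike.coe_injective
  rw [coe_heckeT1Lin_eq k hℓ hℓN f hσ hσ1, h]
  rfl

/-! ### Eigencharacters -/

/-- A common eigenvector of a generating set of a ring of operators gives a ring homomorphism to
`ℂ` (the eigencharacter). -/
theorem exists_eigenCharacter {A : Type*} [Ring A] {V : Type*} [AddCommGroup V] [Module ℂ V]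
    (act : A →+* Module.End ℂ V) (G : Set A) (hG : Subring.closure G = ⊤) (v : V) (hv : v ≠ 0)
    (h : ∀ t ∈ G, ∃ c : ℂ, act t v = c • v) :
    ∃ θ : A →+* ℂ, ∀ t, act t v = θ t • v := by
  have hall : ∀ t : A, ∃ c : ℂ, act t v = c • v := by
    intro t
    have ht : t ∈ Subring.closure G := by rw [hG]; exact Subring.mem_top t
    induction ht using Subring.closure_induction with
    | mem x hx => exact h x hx
    | zero => exact ⟨0, by simp⟩
    | one => exact ⟨1, by simp⟩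
    | add x y _ _ hx hy =>
      obtain ⟨a, ha⟩ := hx
      obtain ⟨b, hb⟩ := hy
      exact ⟨a + b, by rw [map_add, LinearMap.add_apply, ha, hb, add_smul]⟩
    | neg x _ hx =>
      obtain ⟨a, ha⟩ := hx
      exact ⟨-a, by rw [map_neg, LinearMap.neg_apply, ha]; exact (neg_smul a v).symm⟩
    | mul x y _ _ hx hy =>
      obtain ⟨a, ha⟩ := hx
      obtain ⟨b, hb⟩ := hy
      exact ⟨a * b, by
        rw [map_mul, Module.End.mul_apply, hb, map_smul, ha, smul_smul, mul_comm]⟩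
  choose θ hθ using hall
  have huniq : ∀ {a b : ℂ}, a • v = b • v → a = b := fun {a b} hab => by
    by_contra hne
    have : (a - b) • v = 0 := by rw [sub_smul, hab, sub_self]
    rcases smul_eq_zero.mp this with h0 | h0
    · exact hne (sub_eq_zero.mp h0)
    · exact hv h0
  refine ⟨{ toFun := θ, map_one' := ?_, map_mul' := ?_, map_zero' := ?_, map_add' := ?_ }, hθ⟩
  · apply huniq
    rw [← hθ, map_one, Module.End.one_apply, one_smul]
  · intro x y
    apply huniq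
    rw [← hθ, map_mul, Module.End.mul_apply, hθ y, map_smul, hθ x, smul_smul, mul_comm]
  · apply huniq
    rw [← hθ, map_zero, LinearMap.zero_apply, zero_smul]
  · intro x y
    apply huniq
    rw [← hθ, map_add, LinearMap.add_apply, hθ x, hθ y, add_smul]

/-- The eigencharacter of a common eigenvector of all `T_ℓ` (`ℓ ∤ N`, `ℓ ∉ S`) and all `⟨d⟩`. -/
theorem heckeAlgebra1.exists_eigenCharacter
    (f : CuspForm (Gamma1 N : Subgroup (GL (Fin 2) ℝ)) k) (hf : f ≠ 0) (a : ℕ → ℂ)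
    (χ : (ZMod N)ˣ → ℂ)
    (hT : ∀ {ℓ : ℕ} (hℓ : ℓ.Prime) (hℓN : ¬ ℓ ∣ N), ℓ ∉ S → heckeT1Lin k hℓ hℓN f = a ℓ • f)
    (hD : ∀ d : (ZMod N)ˣ, diamondLin k d f = χ d • f) :
    ∃ θ : heckeAlgebra1 N k S →+* ℂ,
      (∀ t : heckeAlgebra1 N k S, (t : Module.End ℂ _) f = θ t • f) ∧
      (∀ {ℓ : ℕ} (hℓ : ℓ.Prime) (hℓN : ¬ ℓ ∣ N) (hℓS : ℓ ∉ S),
        θ (heckeAlgebra1.T hℓ hℓN hℓS) = a ℓ) ∧
      ∀ d : (ZMod N)ˣ, θ (heckeAlgebra1.D d) = χ d := by
  obtain ⟨θ, hθ⟩ := Fermat.Agent.DS.Hecke.exists_eigenCharacter (heckeAlgebra1.act N k S)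
    (Set.range (heckeAlgebra1.gen (N := N) (S := S) k)) heckeAlgebra1.closure_range_gen f hf (by
      rintro _ ⟨i, rfl⟩
      cases i with
      | inl ℓ => exact ⟨a ℓ.1, hT ℓ.2.1 ℓ.2.2.1 ℓ.2.2.2⟩
      | inr d => exact ⟨χ d, hD d⟩)
  have huniq : ∀ {x y : ℂ}, x • f = y • f → x = y := fun {x y} hxy => by
    by_contra hne
    have : (x - y) • f = 0 := by rw [sub_smul, hxy, sub_self]
    rcases smul_eq_zero.mp this with h0 | h0
    · exact hne (sub_eq_zero.mp h0)
    · exact hf h0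
  refine ⟨θ, hθ, ?_, ?_⟩
  · intro ℓ hℓ hℓN hℓS
    apply huniq
    rw [← hθ]
    exact hT hℓ hℓN hℓS
  · intro d
    apply huniq
    rw [← hθ]
    exact hD d

/-! ### The frozen S48 binders -/

section S48

variable (ε : DirichletCharacter ℂ N) (f : CuspForm (Gamma1 N) 1)
  (hT : ∀ p : ℕ, p.Prime → ¬ p ∣ N → ∀ n : ℕ,
    ModularFormClass.qCoeff f (p * n) +
        ε (p : ZMod N) * (if p ∣ n then ModularFormClass.qCoeff f (n / p) else 0) =
      ModularFormClass.qCoeff f p * ModularFormClass.qCoeff f n)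

include hT

/-- Under the S48 hypotheses, `⟨d⟩ f = ε(d) f`. -/
theorem diamondLin_eq_smul_S48 (d : (ZMod N)ˣ) : diamondLin 1 d f = ε d • f :=
  diamondLin_eq_smul_of_slash f (fun x => ε x)
    (fun _ hσ => Fermat.Agent.DS.N0.slash_eq_of_mem_Gamma0 ε f hT hσ) d

/-- Under the S48 hypotheses, `T_p f = a_p f` for every prime `p ∤ N`. -/
theorem heckeT1Lin_eq_smul_S48 {p : ℕ} (hp : p.Prime) (hpN : ¬ p ∣ N) :
    heckeT1Lin 1 hp hpN f = ModularFormClass.qCoeff f p • f :=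
  heckeT1Lin_eq_smul_of_heckeT1 hp hpN f (primeRep_mem hp hpN) (primeRep_d hp hpN) _
    (Fermat.Agent.DS.N0.heckeT1_eq_smul ε f hT hp hpN (primeRep_dvd hp hpN) (primeRep_d hp hpN))

/-- **The eigencharacter of the S48 form**: `θ(T_p) = a_p`, `θ(⟨d⟩) = ε(d)`. -/
theorem exists_eigenCharacter_S48 (hf₁ : ModularFormClass.qCoeff f 1 = 1) (S : Set ℕ) :
    ∃ θ : heckeAlgebra1 N 1 S →+* ℂ,
      (∀ t : heckeAlgebra1 N 1 S, (t : Module.End ℂ _) f = θ t • f) ∧
      (∀ {p : ℕ} (hp : p.Prime) (hpN : ¬ p ∣ N) (hpS : p ∉ S),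
        θ (heckeAlgebra1.T hp hpN hpS) = ModularFormClass.qCoeff f p) ∧
      ∀ d : (ZMod N)ˣ, θ (heckeAlgebra1.D d) = ε d := by
  have hf : f ≠ 0 := by
    rintro rfl
    have h0 : ModularFormClass.qCoeff (0 : CuspForm (Gamma1 N : Subgroup (GL (Fin 2) ℝ)) 1) 1
        = 0 := by
      have := (coeffLin N 1).map_zero
      exact congrFun this 1
    rw [h0] at hf₁
    exact zero_ne_one hf₁
  exact heckeAlgebra1.exists_eigenCharacter f hf (fun p => ModularFormClass.qCoeff f p)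
    (fun d => ε d) (fun hp hpN _ => heckeT1Lin_eq_smul_S48 ε f hT hp hpN)
    (fun d => diamondLin_eq_smul_S48 ε f hT d)

end S48

end Fermat.Agent.DS.Hecke

end
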