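/-
S48 / GATE-N (helper18): the Hecke package `heckePkg1 M : DS.N3.Theta.HeckePkg M` asked for by
helper4's N3-MAIN (board 3495 (i)) — `𝕋 := heckeAlgebra1 M 2 ∅` acting on `CuspForm (Γ₁ M) 2`
through the inclusion, generators `T p` (`p ∤ M` prime) and `⟨d⟩`, and the `q`-coefficient
formula at weight two.
-/
import Fermat.Agent.DS.Hecke.HeckeAlgebra1Gen
import Fermat.Agent.DS.N3.Theta

set_option autoImplicit false

open CongruenceSubgroup Matrix.SpecialLinearGroup UpperHalfPlane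
open scoped MatrixGroups ModularForm

noncomputable section

namespace Fermat.Agent.DS.Hecke

open Fermat.Agent.DS.N3.Theta (HeckePkg unitOf)

variable (M : ℕ) [NeZero M]

/-- `T_p` in `heckeAlgebra1 M 2 ∅` (junk `0` unless `p` is a prime not dividing `M`). -/
def pkgT (p : ℕ) : heckeAlgebra1 M 2 (∅ : Set ℕ) :=
  if h : p.Prime ∧ ¬ p ∣ M then heckeAlgebra1.T h.1 h.2 (Set.notMem_empty p) else 0

variable {M} in
theorem pkgT_of_prime {p : ℕ} (hp : p.Prime) (hpM : ¬ p ∣ M) :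
    pkgT M p = heckeAlgebra1.T hp hpM (Set.notMem_empty p) := by
  rw [pkgT, dif_pos ⟨hp, hpM⟩]

omit [NeZero M] in
variable {M} in
theorem unitOf_eq_primeUnit {p : ℕ} (hp : p.Prime) (hpM : ¬ p ∣ M) :
    unitOf M p = primeUnit hp hpM := by
  apply Units.ext
  rw [Fermat.Agent.DS.N3.Theta.coe_unitOf ((Nat.Prime.coprime_iff_not_dvd hp).2 hpM),
    coe_primeUnit]

/-- **The Hecke package of level `Γ₁(M)`, weight two** (all primes `p ∤ M`, all diamonds). -/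
def heckePkg1 : HeckePkg M where
  𝕋 := heckeAlgebra1 M 2 (∅ : Set ℕ)
  act := heckeAlgebra1.act M 2 ∅
  T := pkgT M
  D := heckeAlgebra1.D
  gen := by
    rw [eq_top_iff, ← heckeAlgebra1.closure_range_gen (N := M) (S := (∅ : Set ℕ)) (k := 2)]
    apply Subring.closure_mono
    rintro _ ⟨i, rfl⟩
    cases i with
    | inl ℓ =>
      left
      exact ⟨ℓ.1, ⟨ℓ.2.1, ℓ.2.2.1⟩, (pkgT_of_prime ℓ.2.1 ℓ.2.2.1).symm⟩
    | inr d =>
      right
      exact ⟨d, rfl⟩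
  qCoeff_T := by
    intro p hp hpM g n
    rw [pkgT_of_prime hp hpM, unitOf_eq_primeUnit hp hpM]
    have h := qCoeff_heckeT1Lin' (N := M) 2 hp hpM g n
    have h1 : (p : ℂ) ^ ((2 : ℤ) - 1) = (p : ℂ) := by norm_num
    rw [h1] at h
    exact h

@[simp] theorem heckePkg1_𝕋 : (heckePkg1 M).𝕋 = heckeAlgebra1 M 2 (∅ : Set ℕ) := rfl

theorem heckePkg1_act (t : heckeAlgebra1 M 2 (∅ : Set ℕ)) :
    (heckePkg1 M).act t = (t : Module.End ℂ _) := rfl

theorem heckePkg1_T {p : ℕ} (hp : p.Prime) (hpM : ¬ p ∣ M) :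
    (heckePkg1 M).T p = heckeAlgebra1.T hp hpM (Set.notMem_empty p) :=
  pkgT_of_prime hp hpM

theorem heckePkg1_D (d : (ZMod M)ˣ) : (heckePkg1 M).D d = heckeAlgebra1.D d := rfl

theorem heckePkg1_act_T {p : ℕ} (hp : p.Prime) (hpM : ¬ p ∣ M) :
    (heckePkg1 M).act ((heckePkg1 M).T p) = heckeT1Lin 2 hp hpM := by
  rw [heckePkg1_T M hp hpM]; rfl

theorem heckePkg1_act_D (d : (ZMod M)ˣ) :
    (heckePkg1 M).act ((heckePkg1 M).D d) = diamondLin 2 d := rfl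

/-- Nebentypus in the shape of `exists_theta_zmod`: a weight-two form with nebentypus `χ` (slash
form on `Γ₀(M)`) is a `χ`-eigenvector of every `act (D d)`. -/
theorem heckePkg1_act_D_eq_smul (F : CuspForm (Gamma1 M : Subgroup (GL (Fin 2) ℝ)) 2)
    (χ : ZMod M → ℂ)
    (h : ∀ σ : SL(2, ℤ), σ ∈ Gamma0 M →
      (F : ℍ → ℂ) ∣[(2 : ℤ)] mapGL ℝ σ = χ ((σ 1 1 : ℤ) : ZMod M) • (F : ℍ → ℂ))
    (d : (ZMod M)ˣ) : (heckePkg1 M).act ((heckePkg1 M).D d) F = χ d • F :=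
  diamondLin_eq_smul_of_slash F χ h d

end Fermat.Agent.DS.Hecke

end
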